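/-
Cluster E' (Mazur: S15, S12 ⇒ S09), piece E-X = the LTE endgame.  Owner: helper64.

For odd integers `x, y` and odd `n`, the `2`-adic valuation of `x ^ n ± y ^ n` is that of `x ± y`
(lifting the exponent at `2`, odd exponent), hence bounded by `log₂ (|x| + |y|)` independently of
`n`.  Consequence: there is no chain of Frey-type triples `A_k + B_k = C_k` with
`A_k = ± a ^ M_k`, `C_k = ± c ^ M_k` (`a, c` odd and fixed, `M_k` odd) and `v₂(B_k) → ∞`.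
-/
import Mathlib

set_option autoImplicit false

namespace Fermat.Agent.EX

open Finset

/-- The cofactor `∑_{i<n} x^i y^(n-1-i)` of `x - y` in `x ^ n - y ^ n` is odd when `x, y, n` are
odd. -/
theorem odd_geom_sum₂ {x y : ℤ} (hx : Odd x) (hy : Odd y) {n : ℕ} (hn : Odd n) :
    Odd (∑ i ∈ range n, x ^ i * y ^ (n - 1 - i)) := by
  rw [← ZMod.intCast_eq_one_iff_odd]
  push_cast
  have hx1 : ((x : ℤ) : ZMod 2) = 1 := ZMod.intCast_eq_one_iff_odd.mpr hx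
  have hy1 : ((y : ℤ) : ZMod 2) = 1 := ZMod.intCast_eq_one_iff_odd.mpr hy
  simp only [hx1, hy1, one_pow, mul_one, sum_const, card_range, nsmul_eq_mul]
  exact ZMod.natCast_eq_one_iff_odd.mpr hn

/-- `2 ^ e ∣ x ^ n - y ^ n ↔ 2 ^ e ∣ x - y` for `x, y, n` odd. -/
theorem two_pow_dvd_pow_sub_pow_iff {x y : ℤ} (hx : Odd x) (hy : Odd y) {n : ℕ} (hn : Odd n)
    (e : ℕ) : (2 : ℤ) ^ e ∣ x ^ n - y ^ n ↔ (2 : ℤ) ^ e ∣ x - y := by
  rw [← geom_sum₂_mul x y n]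
  constructor
  · intro h
    have hcop : IsCoprime ((2 : ℤ) ^ e) (∑ i ∈ range n, x ^ i * y ^ (n - 1 - i)) := by
      apply IsCoprime.pow_left
      exact Int.isCoprime_two_left.mpr (odd_geom_sum₂ hx hy hn)
    exact hcop.dvd_of_dvd_mul_left h
  · intro h
    exact Dvd.dvd.mul_left h _

/-- `2 ^ e ∣ x ^ n + y ^ n ↔ 2 ^ e ∣ x + y` for `x, y, n` odd. -/
theorem two_pow_dvd_pow_add_pow_iff {x y : ℤ} (hx : Odd x) (hy : Odd y) {n : ℕ} (hn : Odd n)
    (e : ℕ) : (2 : ℤ) ^ e ∣ x ^ n + y ^ n ↔ (2 : ℤ) ^ e ∣ x + y := by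
  have h := two_pow_dvd_pow_sub_pow_iff hx hy.neg hn e
  rwa [hn.neg_pow, sub_neg_eq_add, sub_neg_eq_add] at h

/-- **LTE bound.**  If `2 ^ e` divides the non-zero integer `x ^ n + ε y ^ n` (`x, y, n` odd,
`ε = ± 1`) then `2 ^ e ≤ |x| + |y|`. -/
theorem two_pow_le_of_dvd {x y : ℤ} (hx : Odd x) (hy : Odd y) {n : ℕ} (hn : Odd n)
    {ε : ℤ} (hε : ε = 1 ∨ ε = -1) {e : ℕ} (hne : x ^ n + ε * y ^ n ≠ 0)
    (h : (2 : ℤ) ^ e ∣ x ^ n + ε * y ^ n) : (2 : ℤ) ^ e ≤ |x| + |y| := by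
  rcases hε with rfl | rfl
  · rw [one_mul] at h hne
    have h1 := (two_pow_dvd_pow_add_pow_iff hx hy hn e).mp h
    have hne1 : x + y ≠ 0 := by
      intro h0
      apply hne
      have : y = -x := by linarith
      rw [this, hn.neg_pow]; ring
    calc (2 : ℤ) ^ e ≤ |x + y| := Int.le_of_dvd (abs_pos.mpr hne1) ((dvd_abs _ _).mpr h1)
      _ ≤ |x| + |y| := abs_add_le x y
  · have e1 : x ^ n + -1 * y ^ n = x ^ n - y ^ n := by ring
    rw [e1] at h hne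
    have h1 := (two_pow_dvd_pow_sub_pow_iff hx hy hn e).mp h
    have hne1 : x - y ≠ 0 := by
      intro h0
      apply hne
      have : x = y := by linarith
      rw [this]; ring
    calc (2 : ℤ) ^ e ≤ |x - y| := Int.le_of_dvd (abs_pos.mpr hne1) ((dvd_abs _ _).mpr h1)
      _ ≤ |x| + |y| := abs_sub x y

/-- **(X) the LTE endgame.**  Fix odd integers `a, c`.  There is no sequence of non-zero integers
`B k = ± (c ^ M k + ε k * a ^ M k)` with `M k` odd, `ε k = ± 1` and `2 ^ k ∣ B k` for all `k`. -/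
theorem no_two_divisible_chain {a c : ℤ} (ha : Odd a) (hc : Odd c)
    (B : ℕ → ℤ) (M : ℕ → ℕ) (ε : ℕ → ℤ) (hM : ∀ k, Odd (M k)) (hε : ∀ k, ε k = 1 ∨ ε k = -1)
    (hB0 : ∀ k, B k ≠ 0)
    (hB : ∀ k, B k = c ^ M k + ε k * a ^ M k ∨ B k = -(c ^ M k + ε k * a ^ M k))
    (hdiv : ∀ k, (2 : ℤ) ^ k ∣ B k) : False := by
  -- choose `k` with `2 ^ k > |c| + |a|`
  obtain ⟨k, hk⟩ : ∃ k : ℕ, |c| + |a| < (2 : ℤ) ^ k := by
    obtain ⟨k, hk⟩ := pow_unbounded_of_one_lt ((|c| + |a| : ℤ) : ℝ) (by norm_num : (1 : ℝ) < 2)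
    exact ⟨k, by exact_mod_cast hk⟩
  have hne : c ^ M k + ε k * a ^ M k ≠ 0 := by
    intro h0
    rcases hB k with h | h
    · exact hB0 k (h.trans h0)
    · exact hB0 k (h.trans (by rw [h0, neg_zero]))
  have hd : (2 : ℤ) ^ k ∣ c ^ M k + ε k * a ^ M k := by
    rcases hB k with h | h
    · rw [← h]; exact hdiv k
    · have := hdiv k
      rw [h] at this
      exact (dvd_neg).mp this
  have := two_pow_le_of_dvd hc ha (hM k) (hε k) hne hd
  linarith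

/-- Variant with a growth function: the valuations `e k` with `2 ^ (e k) ∣ B k` are bounded by
`log₂ (|a| + |c|)`; in particular `e` cannot be unbounded. -/
theorem two_pow_le_of_chain {a c : ℤ} (ha : Odd a) (hc : Odd c) {B : ℤ} {M : ℕ} {ε : ℤ}
    (hM : Odd M) (hε : ε = 1 ∨ ε = -1) (hB0 : B ≠ 0)
    (hB : B = c ^ M + ε * a ^ M ∨ B = -(c ^ M + ε * a ^ M)) {e : ℕ}
    (hdiv : (2 : ℤ) ^ e ∣ B) : (2 : ℤ) ^ e ≤ |c| + |a| := by
  have hne : c ^ M + ε * a ^ M ≠ 0 := by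
    intro h0
    rcases hB with h | h
    · exact hB0 (h.trans h0)
    · exact hB0 (h.trans (by rw [h0, neg_zero]))
  have hd : (2 : ℤ) ^ e ∣ c ^ M + ε * a ^ M := by
    rcases hB with h | h
    · rw [← h]; exact hdiv
    · rw [h] at hdiv
      exact (dvd_neg).mp hdiv
  exact two_pow_le_of_dvd hc ha hM hε hne hd

end Fermat.Agent.EX
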